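/-
GATE-H / S19, DESIGN v1 (board 4525) node (S3): the two base-ring lemmas (NU) and (HENS)
for finite `O`-subalgebras `B` of a function ring `Z → A` (helper42).  Mathlib only.
Namespace `Fermat.Agent.GH.S3.NuHens` (twin of helper15's `GH/S3/UnitHens.lean`, which owns
`Fermat.Agent.GH.S3`; both files can be imported together).

Abstract frame: `B → E` an injective integral ring extension.
* `isUnit_of_isUnit_algebraMap` (NU): `b : B` with `algebraMap B E b` a unit is a unit of `B`.
* `mem_jacobson_bot_of_algebraMap_mem` (JAC): `b : B` with `algebraMap B E b ∈ Jac E` lies in `Jac B`.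
* `mem_range_of_sub_mem_smul` (HENS0): `r : E`, `c : B`, `r - c ∈ Jac(B) • B[r]` ⟹ `r ∈ B`
  (Nakayama on the finite `B`-module `B[r]`).
* `mem_range_of_root` (HENS): `P : B[X]`, `P(r) = 0`, `P(c) ∈ Jac B`, `Q(r)` a unit of `E`
  for `Q = P /ₘ (X - c)` ⟹ `r ∈ B`.
* `mem_range_of_simple_root` (HENS'): `P(r) = 0`, `r - c ∈ Jac E`, `P'(c)` a unit ⟹ `r ∈ B`.

Concrete frame: `A` a local ring integral over `O`, `Z` finite, `B : Subalgebra O (Z → A)`.
* `isIntegral_pi` : `Z → A` is integral over `O` (hence over every `O`-subalgebra).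
* `Sub.isUnit_of_values` (NU): all values units ⟹ unit of `B`.
* `Sub.mem_of_root`, `Sub.mem_of_simple_root` (HENS): pointwise hypotheses
  `P_z(r_z) = 0`, `r_z ≡ c_z mod 𝔪_A`, `P'(c)_z` unit ⟹ `r ∈ B`.
-/
import Mathlib

set_option autoImplicit false

namespace Fermat.Agent.GH.S3.NuHens

open Polynomial

section Abstract

variable {B E : Type*} [CommRing B] [CommRing E] [Algebra B E] [Algebra.IsIntegral B E]

/-- **(NU)**: in an injective integral extension `B → E`, an element of `B` which becomes a unit
in `E` is a unit of `B`. -/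
theorem isUnit_of_isUnit_algebraMap (hinj : Function.Injective (algebraMap B E)) {b : B}
    (hb : IsUnit (algebraMap B E b)) : IsUnit b := by
  rw [← Ideal.span_singleton_eq_top] at hb ⊢
  rw [← Ideal.map_eq_top_iff (algebraMap B E) hinj
    (algebraMap_isIntegral_iff.mpr inferInstance), Ideal.map_span, Set.image_singleton]
  exact hb

/-- **(JAC)**: an element of `B` whose image lies in the Jacobson radical of `E` lies in the
Jacobson radical of `B`. -/
theorem mem_jacobson_bot_of_algebraMap_mem (hinj : Function.Injective (algebraMap B E)) {b : B}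
    (hb : algebraMap B E b ∈ Ideal.jacobson (⊥ : Ideal E)) :
    b ∈ Ideal.jacobson (⊥ : Ideal B) := by
  rw [Ideal.mem_jacobson_bot] at hb ⊢
  intro y
  apply isUnit_of_isUnit_algebraMap hinj
  simpa using hb (algebraMap B E y)

omit [Algebra.IsIntegral B E] in
/-- products of `J • S` with `S` stay in `J • S` for a subalgebra `S`. -/
theorem mul_mem_smul_toSubmodule (J : Ideal B) (S : Subalgebra B E) {m s : E}
    (hm : m ∈ J • Subalgebra.toSubmodule S) (hs : s ∈ S) :
    m * s ∈ J • Subalgebra.toSubmodule S := by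
  refine Submodule.smul_induction_on hm (fun j hj n hn => ?_) (fun x y hx hy => ?_)
  · rw [smul_mul_assoc]
    exact Submodule.smul_mem_smul hj (S.mul_mem hn hs)
  · rw [add_mul]
    exact Submodule.add_mem _ hx hy

/-- **(HENS0)**: if `r - c ∈ Jac(B) • B[r]` then `r` comes from `B` (Nakayama). -/
theorem mem_range_of_sub_mem_smul {r : E} {c : B}
    (h : r - algebraMap B E c ∈
      Ideal.jacobson (⊥ : Ideal B) • Subalgebra.toSubmodule (Algebra.adjoin B {r})) :
    r ∈ (algebraMap B E).range := by
  set S : Subalgebra B E := Algebra.adjoin B {r} with hS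
  set N : Submodule B E := Subalgebra.toSubmodule S with hN
  have hfg : N.FG := (Algebra.IsIntegral.isIntegral (R := B) r).fg_adjoin_singleton
  have hle : N ≤ (1 : Submodule B E) ⊔ Ideal.jacobson (⊥ : Ideal B) • N := by
    intro x hx
    have hx' : x ∈ Algebra.adjoin B {r} := hx
    rw [Algebra.adjoin_singleton_eq_range_aeval] at hx'
    obtain ⟨p, rfl⟩ := hx'
    have hp : p = (X - C c) * (p /ₘ (X - C c)) + C (p.eval c) := by
      have := modByMonic_add_div p (X - C c)
      rw [modByMonic_X_sub_C_eq_C_eval] at this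
      rw [add_comm]; exact this.symm
    have hval : aeval r p
        = (r - algebraMap B E c) * aeval r (p /ₘ (X - C c)) + algebraMap B E (p.eval c) := by
      conv_lhs => rw [hp]
      simp [aeval_C]
    show aeval r p ∈ _
    rw [hval, add_comm]
    refine Submodule.add_mem_sup ?_ ?_
    · rw [Submodule.one_eq_range]
      exact ⟨p.eval c, rfl⟩
    · refine mul_mem_smul_toSubmodule _ S h ?_
      rw [hS, Algebra.adjoin_singleton_eq_range_aeval]
      exact ⟨_, rfl⟩
  have := Submodule.le_of_le_smul_of_le_jacobson_bot hfg le_rfl hle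
  have hr : r ∈ N := Algebra.subset_adjoin (Set.mem_singleton r)
  have hr1 := this hr
  rw [Submodule.one_eq_range] at hr1
  obtain ⟨b, hb⟩ := hr1
  exact ⟨b, hb⟩

/-- **(HENS)**, quotient form: `P(r) = 0`, `P(c) ∈ Jac B` and `Q(r)` a unit of `E`, where
`P = (X - c) Q + P(c)`, force `r ∈ B`. -/
theorem mem_range_of_root {r : E} {c : B} {P : B[X]}
    (hr : aeval r P = 0) (hc : P.eval c ∈ Ideal.jacobson (⊥ : Ideal B))
    (hQ : IsUnit (aeval r (P /ₘ (X - C c)))) :
    r ∈ (algebraMap B E).range := by
  set S : Subalgebra B E := Algebra.adjoin B {r} with hS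
  -- `E` is integral over `S`
  have : Algebra.IsIntegral S E := Algebra.IsIntegral.tower_top (R := B)
  have hinjS : Function.Injective (algebraMap S E) := Subtype.val_injective
  -- `Q(r)` is a unit of `S`
  have hQS : aeval r (P /ₘ (X - C c)) ∈ S := by
    rw [hS, Algebra.adjoin_singleton_eq_range_aeval]; exact ⟨_, rfl⟩
  have hu : IsUnit (⟨_, hQS⟩ : S) := isUnit_of_isUnit_algebraMap hinjS (by simpa using hQ)
  obtain ⟨u, hu'⟩ := hu.exists_right_inv
  have hu'' : aeval r (P /ₘ (X - C c)) * (u : E) = 1 := by
    have := congrArg (Subtype.val) hu'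
    simpa using this
  -- the basic identity
  have hp : P = (X - C c) * (P /ₘ (X - C c)) + C (P.eval c) := by
    have := modByMonic_add_div P (X - C c)
    rw [modByMonic_X_sub_C_eq_C_eval] at this
    rw [add_comm]; exact this.symm
  have hval : (r - algebraMap B E c) * aeval r (P /ₘ (X - C c)) + algebraMap B E (P.eval c)
      = 0 := by
    rw [← hr]
    conv_rhs => rw [hp]
    simp [aeval_C]
  have hrc : r - algebraMap B E c = (-(P.eval c)) • (u : E) := by
    have h1 : (r - algebraMap B E c) * aeval r (P /ₘ (X - C c)) = -algebraMap B E (P.eval c) :=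
      eq_neg_of_add_eq_zero_left hval
    calc r - algebraMap B E c
        = (r - algebraMap B E c) * (aeval r (P /ₘ (X - C c)) * (u : E)) := by rw [hu'', mul_one]
      _ = ((r - algebraMap B E c) * aeval r (P /ₘ (X - C c))) * (u : E) := by ring
      _ = (-(P.eval c)) • (u : E) := by rw [h1, Algebra.smul_def, map_neg]
  apply mem_range_of_sub_mem_smul (c := c)
  rw [hrc]
  exact Submodule.smul_mem_smul (Ideal.neg_mem_iff _ |>.mpr hc) u.2

/-- **(HENS')**, derivative form: `P(r) = 0`, `r ≡ c` modulo the Jacobson radical of `E` and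
`P'(c)` a unit force `r ∈ B`. -/
theorem mem_range_of_simple_root (hinj : Function.Injective (algebraMap B E)) {r : E} {c : B}
    {P : B[X]} (hr : aeval r P = 0)
    (hrc : r - algebraMap B E c ∈ Ideal.jacobson (⊥ : Ideal E))
    (hder : IsUnit (algebraMap B E (P.derivative.eval c))) :
    r ∈ (algebraMap B E).range := by
  have hp : P = (X - C c) * (P /ₘ (X - C c)) + C (P.eval c) := by
    have := modByMonic_add_div P (X - C c)
    rw [modByMonic_X_sub_C_eq_C_eval] at this
    rw [add_comm]; exact this.symm
  set Q := P /ₘ (X - C c) with hQdef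
  -- `Q(c) = P'(c)`
  have hQc : Q.eval c = P.derivative.eval c := by
    have h := congrArg (fun p => (derivative p).eval c) hp
    simp only [derivative_add, derivative_mul, derivative_sub, derivative_X, derivative_C,
      sub_zero, one_mul, eval_add, eval_mul, eval_sub, eval_X, eval_C, sub_self, zero_mul,
      add_zero] at h
    exact h.symm
  -- `P(c) ∈ Jac B`
  have hPc : P.eval c ∈ Ideal.jacobson (⊥ : Ideal B) := by
    apply mem_jacobson_bot_of_algebraMap_mem hinj
    have h1 : algebraMap B E (P.eval c) = (P.map (algebraMap B E)).eval (algebraMap B E c) := by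
      rw [eval_map, eval₂_at_apply]
    have h2 : (P.map (algebraMap B E)).eval r = 0 := by
      rw [eval_map, ← aeval_def]; exact hr
    obtain ⟨d, hd⟩ := sub_dvd_eval_sub (algebraMap B E c) r (P.map (algebraMap B E))
    rw [h2, sub_zero] at hd
    rw [h1, hd]
    have : algebraMap B E c - r = -(r - algebraMap B E c) := by ring
    rw [this]
    exact Ideal.mul_mem_right _ _ ((Ideal.neg_mem_iff _).mpr hrc)
  -- `Q(r)` is a unit of `E`
  have hQr : IsUnit (aeval r Q) := by
    have h1 : algebraMap B E (Q.eval c) = (Q.map (algebraMap B E)).eval (algebraMap B E c) := by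
      rw [eval_map, eval₂_at_apply]
    have h2 : aeval r Q = (Q.map (algebraMap B E)).eval r := by
      rw [eval_map, ← aeval_def]
    obtain ⟨d, hd⟩ := sub_dvd_eval_sub r (algebraMap B E c) (Q.map (algebraMap B E))
    have h3 : aeval r Q = algebraMap B E (P.derivative.eval c) + (r - algebraMap B E c) * d := by
      rw [h2, ← hQc, h1, ← hd]; ring
    rw [h3]
    obtain ⟨w, hw⟩ := hder
    have hj : (r - algebraMap B E c) * d ∈ Ideal.jacobson (⊥ : Ideal E) :=
      Ideal.mul_mem_right _ _ hrc
    rw [Ideal.mem_jacobson_bot] at hj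
    have := hj (↑w⁻¹)
    have h4 : algebraMap B E (P.derivative.eval c) + (r - algebraMap B E c) * d
        = (w : E) * ((r - algebraMap B E c) * d * (↑w⁻¹ : E) + 1) := by
      rw [← hw]
      have : (w : E) * (↑w⁻¹ : E) = 1 := w.mul_inv
      linear_combination (-(r - algebraMap B E c) * d) * this
    rw [h4]
    exact w.isUnit.mul this
  exact mem_range_of_root hr hPc hQr

end Abstract

section Concrete

variable {O A Z : Type*} [CommRing O] [CommRing A] [Algebra O A]

/-- a finite power of an integral algebra is integral. -/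
theorem isIntegral_pi [Finite Z] [Algebra.IsIntegral O A] : Algebra.IsIntegral O (Z → A) := by
  classical
  cases nonempty_fintype Z
  refine ⟨fun f => ?_⟩
  choose p hpm hp using fun z => Algebra.IsIntegral.isIntegral (R := O) (f z)
  refine ⟨∏ z, p z, monic_prod_of_monic _ _ (fun z _ => hpm z), ?_⟩
  funext z
  have h1 : (eval₂ (algebraMap O (Z → A)) f (∏ z, p z)) z
      = eval₂ (algebraMap O A) (f z) (∏ z, p z) := by
    have := Polynomial.hom_eval₂ (∏ z, p z) (algebraMap O (Z → A)) (Pi.evalRingHom (fun _ => A) z) f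
    have hcomp : (Pi.evalRingHom (fun _ => A) z).comp (algebraMap O (Z → A)) = algebraMap O A := rfl
    rw [hcomp] at this
    exact this
  rw [h1, eval₂_finsetProd]
  exact Finset.prod_eq_zero (Finset.mem_univ z) (hp z)

variable [IsLocalRing A]

/-- membership in the Jacobson radical of `Z → A` from the values. -/
theorem mem_jacobson_pi {f : Z → A} (hf : ∀ z, f z ∈ IsLocalRing.maximalIdeal A) :
    f ∈ Ideal.jacobson (⊥ : Ideal (Z → A)) := by
  rw [Ideal.mem_jacobson_bot]
  intro y
  rw [Pi.isUnit_iff]
  intro z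
  have : f z * y z ∈ IsLocalRing.maximalIdeal A := Ideal.mul_mem_right _ _ (hf z)
  have h1 := (IsLocalRing.mem_maximalIdeal _).mp this
  show IsUnit (f z * y z + 1)
  by_contra hcon
  have h2 : f z * y z + 1 ∈ IsLocalRing.maximalIdeal A := (IsLocalRing.mem_maximalIdeal _).mpr hcon
  have h3 : (1 : A) ∈ IsLocalRing.maximalIdeal A := by
    have := Ideal.sub_mem _ h2 this
    rwa [add_sub_cancel_left] at this
  exact (IsLocalRing.maximalIdeal.isMaximal A).ne_top ((Ideal.eq_top_iff_one _).mpr h3)

variable [Finite Z] [Algebra.IsIntegral O A]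

namespace Sub

variable (B : Subalgebra O (Z → A))

instance isIntegral_top : Algebra.IsIntegral B (Z → A) :=
  haveI := isIntegral_pi (O := O) (A := A) (Z := Z)
  Algebra.IsIntegral.tower_top (R := O)

omit [IsLocalRing A] [Finite Z] [Algebra.IsIntegral O A] in
theorem algebraMap_injective : Function.Injective (algebraMap B (Z → A)) :=
  Subtype.val_injective

omit [IsLocalRing A] in
/-- **(NU)** for `B ⊆ (Z → A)`: an element of `B` all of whose values are units is a unit of `B`. -/
theorem isUnit_of_values {b : B} (h : ∀ z, IsUnit ((b : Z → A) z)) : IsUnit b :=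
  isUnit_of_isUnit_algebraMap (algebraMap_injective B) (Pi.isUnit_iff.mpr h)

omit [IsLocalRing A] in
/-- **(NU)**, inverse form: the pointwise inverse of such an element lies in `B`. -/
theorem exists_inv_of_values {b : B} (h : ∀ z, IsUnit ((b : Z → A) z)) :
    ∃ b' : B, b * b' = 1 ∧ ∀ z, (b : Z → A) z * (b' : Z → A) z = 1 := by
  obtain ⟨b', hb'⟩ := (isUnit_of_values B h).exists_right_inv
  refine ⟨b', hb', fun z => ?_⟩
  have := congrArg (fun x : B => (x : Z → A) z) hb'
  simpa using this

/-- values in the maximal ideal put an element of `B` in the Jacobson radical of `B`. -/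
theorem mem_jacobson_of_values {b : B} (h : ∀ z, (b : Z → A) z ∈ IsLocalRing.maximalIdeal A) :
    b ∈ Ideal.jacobson (⊥ : Ideal B) :=
  mem_jacobson_bot_of_algebraMap_mem (algebraMap_injective B) (mem_jacobson_pi h)

/-- **(HENS)**, quotient form for `B ⊆ (Z → A)`. -/
theorem mem_of_root {r : Z → A} {c : B} {P : B[X]} (hr : aeval r P = 0)
    (hc : ∀ z, ((P.eval c : B) : Z → A) z ∈ IsLocalRing.maximalIdeal A)
    (hQ : ∀ z, IsUnit ((aeval r (P /ₘ (X - C c)) : Z → A) z)) : r ∈ B := by
  obtain ⟨b, hb⟩ := mem_range_of_root hr (mem_jacobson_of_values B hc)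
    (Pi.isUnit_iff.mpr hQ)
  rw [← hb]; exact b.2

/-- **(HENS')**, derivative form for `B ⊆ (Z → A)`: a pointwise root `r` of `P ∈ B[X]` which is
pointwise congruent to `c ∈ B` modulo `𝔪_A`, with `P'(c)` pointwise a unit, lies in `B`. -/
theorem mem_of_simple_root {r : Z → A} {c : B} {P : B[X]} (hr : aeval r P = 0)
    (hrc : ∀ z, r z - (c : Z → A) z ∈ IsLocalRing.maximalIdeal A)
    (hder : ∀ z, IsUnit (((P.derivative.eval c : B) : Z → A) z)) : r ∈ B := by
  obtain ⟨b, hb⟩ := mem_range_of_simple_root (algebraMap_injective B) hr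
    (mem_jacobson_pi (f := r - algebraMap B (Z → A) c) hrc) (Pi.isUnit_iff.mpr hder)
  rw [← hb]; exact b.2

end Sub

end Concrete

end Fermat.Agent.GH.S3.NuHens
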