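import Mathlib

/-!
# (S3) of GATE-H DESIGN v1: units and simple roots descend along integral extensions (helper15)

`B ⊆ C` an integral extension of commutative rings (`algebraMap B C` injective).

* `isUnit_of_isUnit_map` (NU): `b : B` which is a unit of `C` is a unit of `B`.
* `mem_range_of_simple_root` (HENS): `P ∈ B[T]`, `r : C` a root of `P`, `c : B` with
  `r - c ∈ Jac(C)` and `P'(c)` a unit of `C`  ⟹  `r ∈ B`.
  No henselianity, no completion: `B[r] = B + P(c)·B[r]` and Nakayama.
* function forms for a subalgebra `B` of `Z → A`, `A` a local ring integral over `O`.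
-/

set_option linter.unusedSectionVars false
set_option linter.style.haveILetI false

namespace Fermat.Agent.GH.S3

open Polynomial

section Abstract

variable {B C : Type*} [CommRing B] [CommRing C] [Algebra B C]

/-- (NU) units descend along an injective integral extension. -/
theorem isUnit_of_isUnit_map [Algebra.IsIntegral B C]
    (hinj : Function.Injective (algebraMap B C)) {b : B} (hb : IsUnit (algebraMap B C b)) :
    IsUnit b := by
  haveI := (algebraMap_isIntegral_iff.mpr (inferInstance : Algebra.IsIntegral B C)).isLocalHom hinj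
  exact isUnit_of_map_unit (algebraMap B C) b hb

/-- elements of `B` in the Jacobson radical of `C` are in the Jacobson radical of `B`. -/
theorem mem_jacobson_of_map_mem [Algebra.IsIntegral B C]
    (hinj : Function.Injective (algebraMap B C)) {b : B}
    (hb : algebraMap B C b ∈ Ideal.jacobson (⊥ : Ideal C)) : b ∈ Ideal.jacobson (⊥ : Ideal B) := by
  rw [Ideal.mem_jacobson_bot] at hb ⊢
  intro y
  apply isUnit_of_isUnit_map hinj
  rw [map_add, map_mul, map_one]
  exact hb _

theorem isUnit_add_of_mem_jacobson {a j : C} (ha : IsUnit a)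
    (hj : j ∈ Ideal.jacobson (⊥ : Ideal C)) : IsUnit (a + j) := by
  obtain ⟨a', ha'⟩ := ha.exists_right_inv
  have h1 : IsUnit (j * a' + 1) := (Ideal.mem_jacobson_bot.mp hj) a'
  have h2 : a + j = a * (j * a' + 1) := by
    calc a + j = a + j * (a * a') := by rw [ha', mul_one]
      _ = a * (j * a' + 1) := by ring
  rw [h2]
  exact ha.mul h1

/-- (HENS) a root of `P ∈ B[T]` in an integral extension `C ⊇ B` which is congruent modulo the
Jacobson radical of `C` to an element `c ∈ B` with `P'(c)` a unit, lies in `B`. -/
theorem mem_range_of_simple_root [Algebra.IsIntegral B C]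
    (hinj : Function.Injective (algebraMap B C)) (P : B[X]) (r : C) (hr : aeval r P = 0)
    (c : B) (hrc : r - algebraMap B C c ∈ Ideal.jacobson (⊥ : Ideal C))
    (hP' : IsUnit (algebraMap B C (P.derivative.eval c))) :
    r ∈ (algebraMap B C).range := by
  -- the ring `R' = B[r]`
  set R' : Subalgebra B C := Algebra.adjoin B {r} with hR'
  have hrR : r ∈ R' := Algebra.subset_adjoin (Set.mem_singleton r)
  set r' : R' := ⟨r, hrR⟩ with hr'
  set c' : R' := algebraMap B R' c with hc'
  set δ : R' := r' - c' with hδ
  haveI : Algebra.IsIntegral R' C := Algebra.IsIntegral.tower_top (R := B)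
  have hinj' : Function.Injective (algebraMap R' C) := Subtype.val_injective
  have hδC : algebraMap R' C δ = r - algebraMap B C c := rfl
  -- Taylor expansion at `c`
  obtain ⟨k, hk⟩ := Polynomial.binomExpansion (P.map (algebraMap B R')) c' δ
  have hcδ : c' + δ = r' := by rw [hδ]; ring
  have h0 : (P.map (algebraMap B R')).eval r' = 0 := by
    apply hinj'
    rw [map_zero, Polynomial.eval_map_algebraMap, ← Polynomial.aeval_algebraMap_apply]
    exact hr
  have hPc : (P.map (algebraMap B R')).eval c' = algebraMap B R' (P.eval c) := by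
    rw [Polynomial.eval_map, hc', Polynomial.eval₂_at_apply]
  have hP'c : (P.map (algebraMap B R')).derivative.eval c'
      = algebraMap B R' (P.derivative.eval c) := by
    rw [Polynomial.derivative_map, Polynomial.eval_map, hc', Polynomial.eval₂_at_apply]
  rw [hcδ, h0, hPc, hP'c] at hk
  set u : R' := algebraMap B R' (P.derivative.eval c) + k * δ with hu
  have hkδ : algebraMap B R' (P.eval c) = -(u * δ) := by
    rw [hu]
    linear_combination -hk
  -- `u` is a unit of `R'`
  have huC : IsUnit (algebraMap R' C u) := by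
    rw [hu, map_add, map_mul, hδC]
    exact isUnit_add_of_mem_jacobson hP' (Ideal.mul_mem_left _ _ hrc)
  have huR : IsUnit u := isUnit_of_isUnit_map hinj' huC
  obtain ⟨v, hv⟩ := huR.exists_right_inv
  have hδv : δ = -(algebraMap B R' (P.eval c) * v) := by
    rw [hkδ]
    calc δ = δ * (u * v) := by rw [hv, mul_one]
      _ = -(-(u * δ) * v) := by ring
  -- `P(c)` lies in the Jacobson radical of `B`
  have hPcJ : P.eval c ∈ Ideal.jacobson (⊥ : Ideal B) := by
    apply mem_jacobson_of_map_mem hinj
    have : algebraMap B C (P.eval c) = -(algebraMap R' C u * (r - algebraMap B C c)) := by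
      have := congrArg (algebraMap R' C) hkδ
      rw [map_neg, map_mul, hδC] at this
      exact this
    rw [this]
    exact neg_mem (Ideal.mul_mem_left _ _ hrc)
  -- Nakayama
  set N : Submodule B C := LinearMap.range (Algebra.linearMap B C) with hN
  set N' : Submodule B C := Subalgebra.toSubmodule R' with hN'
  have hfg : N'.FG := IsIntegral.fg_adjoin_singleton (Algebra.IsIntegral.isIntegral r)
  have hIJ : Ideal.span {P.eval c} ≤ Ideal.jacobson (⊥ : Ideal B) := by
    rw [Ideal.span_le, Set.singleton_subset_iff]
    exact hPcJ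
  have hNN : N' ≤ N ⊔ Ideal.span {P.eval c} • N' := by
    intro x hx
    have hx' : x ∈ Algebra.adjoin B {r} := hx
    rw [Algebra.adjoin_singleton_eq_range_aeval] at hx'
    obtain ⟨Q, rfl⟩ := hx'
    obtain ⟨t, ht⟩ := Polynomial.sub_dvd_eval_sub r' c' (Q.map (algebraMap B R'))
    have hQc : (Q.map (algebraMap B R')).eval c' = algebraMap B R' (Q.eval c) := by
      rw [Polynomial.eval_map, hc', Polynomial.eval₂_at_apply]
    have hQr : algebraMap R' C ((Q.map (algebraMap B R')).eval r') = aeval r Q := by
      rw [Polynomial.eval_map_algebraMap, ← Polynomial.aeval_algebraMap_apply]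
      rfl
    have e : aeval r Q = algebraMap B C (Q.eval c)
        + (P.eval c) • (algebraMap R' C (-(v * t))) := by
      rw [← hQr]
      have h1 : (Q.map (algebraMap B R')).eval r'
          = algebraMap B R' (Q.eval c) + δ * t := by
        rw [← hQc, ← ht]; ring
      rw [h1, map_add, hδv, Algebra.smul_def]
      simp only [map_neg, map_mul]
      rw [← IsScalarTower.algebraMap_apply B R' C, ← IsScalarTower.algebraMap_apply B R' C]
      ring
    show (aeval r) Q ∈ N ⊔ Ideal.span {P.eval c} • N'
    rw [e]
    refine Submodule.add_mem_sup ⟨Q.eval c, rfl⟩ ?_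
    exact Submodule.smul_mem_smul (Ideal.subset_span (Set.mem_singleton _)) (-(v * t)).2
  have hle : N' ≤ N := Submodule.le_of_le_smul_of_le_jacobson_bot hfg hIJ hNN
  obtain ⟨b, hb⟩ := hle (show r ∈ N' from hrR)
  exact ⟨b, hb⟩

end Abstract

section Functions

variable {O A : Type*} [CommRing O] [CommRing A] [Algebra O A] {Z : Type*} [Finite Z]

/-- a function with integral values on a finite set is integral in the product algebra. -/
theorem isIntegral_pi (f : Z → A) (hf : ∀ z, IsIntegral O (f z)) : IsIntegral O f := by
  classical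
  haveI := Fintype.ofFinite Z
  choose P hPm hP using hf
  refine ⟨∏ z, P z, Polynomial.monic_prod_of_monic _ _ (fun z _ => hPm z), ?_⟩
  funext z
  have h1 : (Polynomial.eval₂ (algebraMap O (Z → A)) f (∏ z, P z)) z
      = Polynomial.eval₂ (algebraMap O A) (f z) (∏ z, P z) := by
    have := Polynomial.aeval_algHom_apply (Pi.evalAlgHom O (fun _ : Z => A) z) f (∏ z, P z)
    rw [Polynomial.aeval_def, Polynomial.aeval_def] at this
    exact this.symm
  rw [h1, Polynomial.eval₂_finsetProd]
  exact Finset.prod_eq_zero (Finset.mem_univ z) (hP z)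

instance isIntegral_pi_of_isIntegral [Algebra.IsIntegral O A] : Algebra.IsIntegral O (Z → A) :=
  ⟨fun f => isIntegral_pi f (fun z => Algebra.IsIntegral.isIntegral (f z))⟩

variable [IsLocalRing A]

/-- functions with values in the maximal ideal lie in the Jacobson radical of `Z → A`. -/
theorem mem_jacobson_pi {f : Z → A} (hf : ∀ z, f z ∈ IsLocalRing.maximalIdeal A) :
    f ∈ Ideal.jacobson (⊥ : Ideal (Z → A)) := by
  rw [Ideal.mem_jacobson_bot]
  intro y
  rw [Pi.isUnit_iff]
  intro z
  have h1 : f z * y z ∈ IsLocalRing.maximalIdeal A := Ideal.mul_mem_right _ _ (hf z)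
  have h2 : ¬ IsUnit (f z * y z) := (IsLocalRing.mem_maximalIdeal _).mp h1
  rcases IsLocalRing.isUnit_or_isUnit_of_add_one (a := -(f z * y z)) (b := f z * y z + 1)
    (by ring) with h | h
  · exact absurd (by simpa using h) h2
  · exact h

variable [Algebra.IsIntegral O A]

/-- **(NU)** a member of a subalgebra `B ⊆ (Z → A)` all of whose values are units is a unit of
`B`. -/
theorem isUnit_of_forall_isUnit (B : Subalgebra O (Z → A)) (b : B) (hb : ∀ z, IsUnit ((b : Z → A) z)) :
    IsUnit b := by
  haveI : Algebra.IsIntegral B (Z → A) := Algebra.IsIntegral.tower_top (R := O)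
  apply isUnit_of_isUnit_map (B := B) (C := Z → A) Subtype.val_injective
  rw [Pi.isUnit_iff]
  exact hb

/-- **(HENS)** `P ∈ B[T]`, `r : Z → A` with `P_z(r_z) = 0`, `r ≡ c` modulo the maximal ideal for
some `c ∈ B` with `P'(c)` pointwise a unit: then `r ∈ B`. -/
theorem mem_of_simple_root (B : Subalgebra O (Z → A)) (P : B[X]) (r : Z → A)
    (hr : Polynomial.aeval r P = 0) (c : B)
    (hrc : ∀ z, r z - (c : Z → A) z ∈ IsLocalRing.maximalIdeal A)
    (hP' : ∀ z, IsUnit (((P.derivative.eval c : B) : Z → A) z)) : r ∈ B := by
  haveI : Algebra.IsIntegral B (Z → A) := Algebra.IsIntegral.tower_top (R := O)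
  obtain ⟨b, hb⟩ := mem_range_of_simple_root (B := B) (C := Z → A) Subtype.val_injective P r hr c
    (mem_jacobson_pi hrc) (by rw [Pi.isUnit_iff]; exact hP')
  rw [← hb]
  exact b.2

end Functions

end Fermat.Agent.GH.S3
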